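import Mathlib
import Fermat.Prelude.Def_EllipticCurve_FrobeniusTrace
import Fermat.Prelude.Def_ExtCitation_KummerBridge

/-!
# W7 (CYC): the mod `p` cyclotomic character at Frobenius and inertia

`Qbar = AlgebraicClosure ℚ`, `G = Qbar ≃ₐ[ℚ] Qbar`, `χ = ExtCitation.cycloChar p : G →* (ZMod p)ˣ`
(the prelude's mod `p` cyclotomic character).

* generic residue lemmas for a valuation subring `A` of a field `L`: roots of unity lie in `A`,
  and reduction modulo the maximal ideal is injective on the `n`-th roots of unity when `n` is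
  nonzero in the residue field (`h10_residue_injOn_roots`);
* `h10cyc_spec` : `σ ζ = ζ ^ (χ σ).val` for `ζ ^ p = 1`;
* `h10cyc_frobenius` : `χ σ = ℓ` for a Frobenius `σ` at `A` over `ℓ ≠ p`;
* `h10cyc_inertia` : `χ τ = 1` for `τ` in the inertia group at `A` over `ℓ ≠ p`;
* `h10cyc_eq_one_of_fix`, `h10cyc_finite_level` : `χ` factors through `ℚ(ζ_p)`;
* `h10cycK` : the `κ`-valued character for a field `κ` of characteristic `p`.
-/

set_option autoImplicit false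
set_option linter.unusedSectionVars false
set_option linter.unusedVariables false

open ValuationSubring

noncomputable section

namespace Fermat.Agent.S42x.Cyc.H10

section Residue

variable {L : Type*} [Field L] (A : ValuationSubring L)

/-- A root of unity lies in every valuation subring. -/
theorem h10_mem_of_pow_eq_one (ζ : L) (n : ℕ) (hn : n ≠ 0) (h : ζ ^ n = 1) : ζ ∈ A := by
  rcases A.mem_or_inv_mem ζ with h1 | h1
  · exact h1
  · have h2 : ζ = ζ⁻¹ ^ (n - 1) := by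
      have hζ0 : ζ ≠ 0 := by
        rintro rfl
        rw [zero_pow hn] at h
        exact zero_ne_one h
      have h3 : ζ * ζ⁻¹ ^ (n - 1) * ζ ^ (n - 1) = ζ * 1 := by
        rw [mul_assoc, ← mul_pow, inv_mul_cancel₀ hζ0, one_pow]
      have h4 : ζ ^ (n - 1) * ζ = 1 := by
        rw [← pow_succ, Nat.sub_add_cancel (Nat.one_le_iff_ne_zero.mpr hn), h]
      calc ζ = ζ * 1 := (mul_one ζ).symm
        _ = ζ * (ζ ^ (n - 1) * ζ)⁻¹ := by rw [h4, inv_one]
        _ = ζ⁻¹ ^ (n - 1) := by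
            rw [mul_inv, inv_pow, mul_comm (ζ ^ (n - 1))⁻¹, ← mul_assoc, mul_inv_cancel₀ hζ0,
              one_mul]
    rw [h2]
    exact pow_mem h1 _

/-- An `n`-th root of unity of `A` which reduces to `1` is `1`, if `n` is nonzero in the residue
field. -/
theorem h10_eq_one_of_residue_eq_one (n : ℕ) (hn : (n : IsLocalRing.ResidueField A) ≠ 0)
    (η : A) (hη : η ^ n = 1) (hres : IsLocalRing.residue A η = 1) : η = 1 := by
  by_contra hne
  have h1 : (∑ i ∈ Finset.range n, η ^ i) * (η - 1) = 0 := by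
    rw [geom_sum_mul, hη, sub_self]
  have h2 : ∑ i ∈ Finset.range n, η ^ i = 0 := by
    rcases mul_eq_zero.mp h1 with h | h
    · exact h
    · exact absurd (sub_eq_zero.mp h) hne
  have h3 := congrArg (IsLocalRing.residue A) h2
  rw [map_sum, map_zero] at h3
  have h4 : ∀ i ∈ Finset.range n, IsLocalRing.residue A (η ^ i) = 1 := by
    intro i _
    rw [map_pow, hres, one_pow]
  rw [Finset.sum_congr rfl h4, Finset.sum_const, Finset.card_range, nsmul_eq_mul, mul_one] at h3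
  exact hn h3

/-- Reduction modulo the maximal ideal is injective on the `n`-th roots of unity, if `n` is
nonzero in the residue field. -/
theorem h10_residue_injOn_roots (n : ℕ) (hn : (n : IsLocalRing.ResidueField A) ≠ 0)
    (ζ₁ ζ₂ : A) (h₁ : ζ₁ ^ n = 1) (h₂ : ζ₂ ^ n = 1)
    (hres : IsLocalRing.residue A ζ₁ = IsLocalRing.residue A ζ₂) : ζ₁ = ζ₂ := by
  have hn0 : n ≠ 0 := by
    rintro rfl
    exact hn Nat.cast_zero
  have h3 : ζ₂ ^ (n - 1) * ζ₂ = 1 := by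
    rw [← pow_succ, Nat.sub_add_cancel (Nat.one_le_iff_ne_zero.mpr hn0), h₂]
  have h4 : ζ₁ * ζ₂ ^ (n - 1) = 1 := by
    apply h10_eq_one_of_residue_eq_one A n hn
    · rw [mul_pow, h₁, one_mul, ← pow_mul, mul_comm, pow_mul, h₂, one_pow]
    · rw [map_mul, hres, ← map_mul, mul_comm, h3, map_one]
  calc ζ₁ = ζ₁ * (ζ₂ ^ (n - 1) * ζ₂) := by rw [h3, mul_one]
    _ = (ζ₁ * ζ₂ ^ (n - 1)) * ζ₂ := by ring
    _ = ζ₂ := by rw [h4, one_mul]

/-- The residue characteristic: `ℓ = 0` in the residue field of `A` over `ℓ`. -/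
theorem h10_natCast_residue_eq_zero {ℓ : ℕ} (hA : A.LiesOverPrime ℓ) :
    ((ℓ : ℕ) : IsLocalRing.ResidueField A) = 0 := by
  have h1 : ((ℓ : A) : L) = (ℓ : L) := by push_cast; rfl
  have h2 : (ℓ : A) ∈ IsLocalRing.maximalIdeal A := by
    rw [IsLocalRing.mem_maximalIdeal, _root_.mem_nonunits_iff]
    intro hu
    have h3 : ((ℓ : A) : L) ∈ A.nonunits := by rw [h1]; exact hA
    rw [ValuationSubring.mem_nonunits_iff_exists_mem_maximalIdeal] at h3
    obtain ⟨ha, h4⟩ := h3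
    have h5 : (⟨((ℓ : A) : L), ha⟩ : A) = (ℓ : A) := Subtype.ext rfl
    rw [h5, IsLocalRing.mem_maximalIdeal, _root_.mem_nonunits_iff] at h4
    exact h4 hu
  have h6 := (IsLocalRing.residue_eq_zero_iff (ℓ : A)).2 h2
  rwa [map_natCast] at h6

/-- A natural number prime to the residue characteristic is nonzero in the residue field. -/
theorem h10_natCast_residue_ne_zero {ℓ : ℕ} (hA : A.LiesOverPrime ℓ) (n : ℕ)
    (hcop : Nat.Coprime n ℓ) : ((n : ℕ) : IsLocalRing.ResidueField A) ≠ 0 := by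
  intro hn
  have hℓ := h10_natCast_residue_eq_zero A hA
  have h1 : ringChar (IsLocalRing.ResidueField A) ∣ n := (ringChar.spec _ n).1 hn
  have h2 : ringChar (IsLocalRing.ResidueField A) ∣ ℓ := (ringChar.spec _ ℓ).1 hℓ
  have h3 : ringChar (IsLocalRing.ResidueField A) ∣ 1 := by
    have := Nat.dvd_gcd h1 h2
    rwa [hcop.gcd_eq_one] at this
  exact CharP.ringChar_ne_one (Nat.dvd_one.mp h3)

end Residue

section Action

variable {K L : Type*} [Field K] [Field L] [Algebra K L] (A : ValuationSubring L)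

/-- The action of the decomposition group on the residue field, on residue classes. -/
theorem h10_smul_residue (σ : L ≃ₐ[K] L) (hσ : σ ∈ A.decompositionSubgroup K) (x : L)
    (hx : x ∈ A) (hσx : σ x ∈ A) :
    (⟨σ, hσ⟩ : A.decompositionSubgroup K) • IsLocalRing.residue A ⟨x, hx⟩ =
      IsLocalRing.residue A ⟨σ x, hσx⟩ := by
  rw [← IsLocalRing.ResidueField.residue_smul]
  rfl

/-- A Frobenius at `A` sends an `n`-th root of unity `ζ` to `ζ ^ q`, if `n` is nonzero in the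
residue field. -/
theorem h10_frobenius_root {q : ℕ} (σ : L ≃ₐ[K] L) (hσ : A.IsFrobeniusAt σ q) (n : ℕ)
    (hn : (n : IsLocalRing.ResidueField A) ≠ 0) (ζ : L) (hζ : ζ ^ n = 1) : σ ζ = ζ ^ q := by
  have hn0 : n ≠ 0 := by
    rintro rfl
    exact hn Nat.cast_zero
  have hζA : ζ ∈ A := h10_mem_of_pow_eq_one A ζ n hn0 hζ
  have hσζ : (σ ζ) ^ n = 1 := by rw [← map_pow, hζ, map_one]
  have hσζA : σ ζ ∈ A := h10_mem_of_pow_eq_one A (σ ζ) n hn0 hσζ
  have h1 := hσ.smul_residue_eq (IsLocalRing.residue A ⟨ζ, hζA⟩)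
  rw [h10_smul_residue A σ hσ.mem_decompositionSubgroup ζ hζA hσζA, ← map_pow] at h1
  have h2 := h10_residue_injOn_roots A n hn ⟨σ ζ, hσζA⟩ (⟨ζ, hζA⟩ ^ q)
    (Subtype.ext (by simpa using hσζ))
    (Subtype.ext (by
      show ((ζ ^ q) ^ n : L) = 1
      rw [← pow_mul, mul_comm, pow_mul, hζ, one_pow])) h1
  exact congrArg Subtype.val h2

/-- An element of the inertia group at `A` fixes every `n`-th root of unity, if `n` is nonzero
in the residue field. -/
theorem h10_inertia_root (τ : L ≃ₐ[K] L) (hτ : τ ∈ A.inertiaSubgroupIn K) (n : ℕ)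
    (hn : (n : IsLocalRing.ResidueField A) ≠ 0) (ζ : L) (hζ : ζ ^ n = 1) : τ ζ = ζ := by
  have hn0 : n ≠ 0 := by
    rintro rfl
    exact hn Nat.cast_zero
  obtain ⟨τ', hτ', rfl⟩ := hτ
  have hζA : ζ ∈ A := h10_mem_of_pow_eq_one A ζ n hn0 hζ
  have hσζ : ((τ' : L ≃ₐ[K] L) ζ) ^ n = 1 := by rw [← map_pow, hζ, map_one]
  have hσζA : (τ' : L ≃ₐ[K] L) ζ ∈ A := h10_mem_of_pow_eq_one A _ n hn0 hσζ
  have h0 : τ' • IsLocalRing.residue A ⟨ζ, hζA⟩ = IsLocalRing.residue A ⟨ζ, hζA⟩ := by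
    have h : (MulSemiringAction.toRingAut (A.decompositionSubgroup K)
        (IsLocalRing.ResidueField A)) τ' = 1 := hτ'
    have h' := congrArg (fun f : RingAut (IsLocalRing.ResidueField A) =>
      f (IsLocalRing.residue A ⟨ζ, hζA⟩)) h
    exact h'
  have h1 : IsLocalRing.residue A ⟨(τ' : L ≃ₐ[K] L) ζ, hσζA⟩ =
      IsLocalRing.residue A ⟨ζ, hζA⟩ := by
    rw [← h0, ← h10_smul_residue A (τ' : L ≃ₐ[K] L) τ'.2 ζ hζA hσζA]
  have h2 := h10_residue_injOn_roots A n hn ⟨(τ' : L ≃ₐ[K] L) ζ, hσζA⟩ ⟨ζ, hζA⟩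
    (Subtype.ext (by simpa using hσζ)) (Subtype.ext (by simpa using hζ)) h1
  exact congrArg Subtype.val h2

end Action

section Cyc

local notation "Qbar" => AlgebraicClosure ℚ

variable (p : ℕ) [Fact p.Prime]

open ExtCitation

/-- **(C1)** the defining property of the mod `p` cyclotomic character, on all `p`-th roots of
unity of `ℚ̄`. -/
theorem h10cyc_spec (σ : Qbar ≃ₐ[ℚ] Qbar) (ζ : Qbar) (hζ : ζ ^ p = 1) :
    σ ζ = ζ ^ ((cycloChar p σ : (ZMod p)ˣ) : ZMod p).val := by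
  haveI : NeZero p := ⟨(Fact.out : p.Prime).ne_zero⟩
  have hspec := modularCyclotomicCharacter.spec (L := Qbar) (card_rootsOfUnity_eq_self p)
    (σ : Qbar ≃+* Qbar) (rootsOfUnity.mkOfPowEq ζ hζ).2
  rw [rootsOfUnity.coe_mkOfPowEq] at hspec
  exact hspec

/-- a primitive `p`-th root of unity of `ℚ̄` -/
theorem h10_exists_primitiveRoot : ∃ ζ : Qbar, IsPrimitiveRoot ζ p := by
  have hpp : p.Prime := Fact.out
  haveI : NeZero p := ⟨hpp.ne_zero⟩
  haveI : NeZero (p : Qbar) := ⟨Nat.cast_ne_zero.mpr hpp.ne_zero⟩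
  exact HasEnoughRootsOfUnity.exists_primitiveRoot Qbar p

/-- The cyclotomic character is determined by the action on one primitive root. -/
theorem h10cyc_eq_of_primitiveRoot (σ : Qbar ≃ₐ[ℚ] Qbar) (ζ : Qbar) (hζ : IsPrimitiveRoot ζ p)
    (k : ℕ) (h : σ ζ = ζ ^ k) : ((cycloChar p σ : (ZMod p)ˣ) : ZMod p) = (k : ZMod p) := by
  have hpp : p.Prime := Fact.out
  haveI : NeZero p := ⟨hpp.ne_zero⟩
  rw [h10cyc_spec p σ ζ hζ.pow_eq_one] at h
  have h2 := hζ.pow_inj (ZMod.val_lt _) (Nat.mod_lt k hpp.pos)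
    (by rw [h]; exact pow_eq_pow_mod k hζ.pow_eq_one :
      ζ ^ ((cycloChar p σ : (ZMod p)ˣ) : ZMod p).val = ζ ^ (k % p))
  have h3 : ((((cycloChar p σ : (ZMod p)ˣ) : ZMod p).val : ℕ) : ZMod p) = ((k % p : ℕ) : ZMod p) :=
    by rw [h2]
  rw [ZMod.natCast_val, ZMod.cast_id', id, ZMod.natCast_mod] at h3
  exact h3

/-- **(C2)** the cyclotomic character at a Frobenius over `ℓ ≠ p` is `ℓ`. -/
theorem h10cyc_frobenius {ℓ : ℕ} (hℓ : ℓ.Prime) (hℓp : ℓ ≠ p) (A : ValuationSubring Qbar)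
    (hA : A.LiesOverPrime ℓ) (σ : Qbar ≃ₐ[ℚ] Qbar) (hσ : A.IsFrobeniusAt σ ℓ) :
    ((cycloChar p σ : (ZMod p)ˣ) : ZMod p) = (ℓ : ZMod p) := by
  have hpp : p.Prime := Fact.out
  obtain ⟨ζ, hζ⟩ := h10_exists_primitiveRoot p
  have hn : ((p : ℕ) : IsLocalRing.ResidueField A) ≠ 0 :=
    h10_natCast_residue_ne_zero A hA p ((Nat.coprime_primes hpp hℓ).2 (Ne.symm hℓp))
  exact h10cyc_eq_of_primitiveRoot p σ ζ hζ ℓ
    (h10_frobenius_root A σ hσ p hn ζ hζ.pow_eq_one)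

/-- **(C3)** the cyclotomic character is trivial on inertia at `ℓ ≠ p`. -/
theorem h10cyc_inertia {ℓ : ℕ} (hℓ : ℓ.Prime) (hℓp : ℓ ≠ p) (A : ValuationSubring Qbar)
    (hA : A.LiesOverPrime ℓ) (τ : Qbar ≃ₐ[ℚ] Qbar) (hτ : τ ∈ A.inertiaSubgroupIn ℚ) :
    cycloChar p τ = 1 := by
  have hpp : p.Prime := Fact.out
  obtain ⟨ζ, hζ⟩ := h10_exists_primitiveRoot p
  have hn : ((p : ℕ) : IsLocalRing.ResidueField A) ≠ 0 :=
    h10_natCast_residue_ne_zero A hA p ((Nat.coprime_primes hpp hℓ).2 (Ne.symm hℓp))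
  have h1 : τ ζ = ζ ^ 1 := by
    rw [pow_one]
    exact h10_inertia_root A τ hτ p hn ζ hζ.pow_eq_one
  have h2 := h10cyc_eq_of_primitiveRoot p τ ζ hζ 1 h1
  rw [Nat.cast_one] at h2
  exact Units.ext h2

/-- **(C4)** the cyclotomic character is trivial on automorphisms fixing the `p`-th roots of
unity. -/
theorem h10cyc_eq_one_of_fix (σ : Qbar ≃ₐ[ℚ] Qbar) (h : ∀ ζ : Qbar, ζ ^ p = 1 → σ ζ = ζ) :
    cycloChar p σ = 1 := by
  obtain ⟨ζ, hζ⟩ := h10_exists_primitiveRoot p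
  have h1 : σ ζ = ζ ^ 1 := by
    rw [pow_one]
    exact h ζ hζ.pow_eq_one
  have h2 := h10cyc_eq_of_primitiveRoot p σ ζ hζ 1 h1
  rw [Nat.cast_one] at h2
  exact Units.ext h2

/-- The `p`-th cyclotomic field inside `ℚ̄`, as the field generated by the `p`-th roots of
unity. -/
def h10cycField : IntermediateField ℚ Qbar :=
  IntermediateField.adjoin ℚ {ζ : Qbar | ζ ^ p = 1}

theorem h10_mem_cycField (ζ : Qbar) (hζ : ζ ^ p = 1) : ζ ∈ h10cycField p :=
  IntermediateField.subset_adjoin ℚ _ hζ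

theorem h10_roots_eq_rootSet :
    {ζ : Qbar | ζ ^ p = 1} = (Polynomial.X ^ p - 1 : Polynomial ℚ).rootSet Qbar := by
  have hpp : p.Prime := Fact.out
  ext ζ
  have hne : (Polynomial.X ^ p - 1 : Polynomial ℚ) ≠ 0 := by
    have := Polynomial.X_pow_sub_C_ne_zero (R := ℚ) hpp.pos 1
    rwa [map_one] at this
  rw [Set.mem_setOf_eq, Polynomial.mem_rootSet_of_ne hne]
  simp [sub_eq_zero]

theorem h10_roots_finite : {ζ : Qbar | ζ ^ p = 1}.Finite := by
  rw [h10_roots_eq_rootSet]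
  exact Polynomial.rootSet_finite _ _

instance h10cycField_finiteDimensional : FiniteDimensional ℚ (h10cycField p) := by
  have hpp : p.Prime := Fact.out
  haveI : Finite {ζ : Qbar | ζ ^ p = 1} := (h10_roots_finite p).to_subtype
  haveI : Algebra.IsAlgebraic ℚ Qbar := AlgebraicClosure.isAlgebraic ℚ
  exact IntermediateField.finiteDimensional_adjoin
    (fun ζ _ => (Algebra.IsAlgebraic.isAlgebraic (R := ℚ) ζ).isIntegral)

instance h10cycField_isGalois : IsGalois ℚ (h10cycField p) := by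
  have hpp : p.Prime := Fact.out
  haveI : Normal ℚ (h10cycField p) := by
    unfold h10cycField
    rw [h10_roots_eq_rootSet]
    exact Normal.of_isSplittingField (Polynomial.X ^ p - 1 : Polynomial ℚ)
      (hFEp := IntermediateField.adjoin_rootSet_isSplittingField (IsAlgClosed.splits _))
  exact ⟨⟩

/-- **(C4)** the cyclotomic character factors through the finite Galois level `ℚ(μ_p)`. -/
theorem h10cyc_eq_one_of_fix_cycField (σ : Qbar ≃ₐ[ℚ] Qbar)
    (h : ∀ x ∈ h10cycField p, σ x = x) : cycloChar p σ = 1 :=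
  h10cyc_eq_one_of_fix p σ (fun ζ hζ => h ζ (h10_mem_cycField p ζ hζ))

/-- **(C4)**, existential form. -/
theorem h10cyc_finite_level :
    ∃ K : IntermediateField ℚ Qbar, FiniteDimensional ℚ K ∧ IsGalois ℚ K ∧
      ∀ σ : Qbar ≃ₐ[ℚ] Qbar, (∀ x ∈ K, σ x = x) → cycloChar p σ = 1 :=
  ⟨h10cycField p, inferInstance, inferInstance, h10cyc_eq_one_of_fix_cycField p⟩

/-- If two automorphisms agree on `ℚ(μ_p)`, their cyclotomic characters agree. -/
theorem h10cyc_eq_of_eqOn (σ τ : Qbar ≃ₐ[ℚ] Qbar) (h : ∀ x ∈ h10cycField p, σ x = τ x) :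
    cycloChar p σ = cycloChar p τ := by
  have h1 : cycloChar p (τ⁻¹ * σ) = 1 := by
    apply h10cyc_eq_one_of_fix_cycField
    intro x hx
    show τ⁻¹ (σ x) = x
    rw [h x hx]
    exact τ.symm_apply_apply x
  rw [map_mul, map_inv, inv_mul_eq_one] at h1
  exact h1.symm

section Kappa

variable {κ : Type*} [Field κ] (φ : ZMod p →+* κ)

/-- **(C5)** the `κ`-valued mod `p` cyclotomic character, for a field `κ` of characteristic
`p` (`φ : ZMod p →+* κ`). -/
def h10cycK : (Qbar ≃ₐ[ℚ] Qbar) →* κˣ :=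
  (Units.map (φ : ZMod p →* κ)).comp (cycloChar p)

theorem h10cycK_coe (σ : Qbar ≃ₐ[ℚ] Qbar) :
    ((h10cycK p φ σ : κˣ) : κ) = φ ((cycloChar p σ : (ZMod p)ˣ) : ZMod p) := rfl

theorem h10cycK_frobenius {ℓ : ℕ} (hℓ : ℓ.Prime) (hℓp : ℓ ≠ p) (A : ValuationSubring Qbar)
    (hA : A.LiesOverPrime ℓ) (σ : Qbar ≃ₐ[ℚ] Qbar) (hσ : A.IsFrobeniusAt σ ℓ) :
    ((h10cycK p φ σ : κˣ) : κ) = (ℓ : κ) := by
  rw [h10cycK_coe, h10cyc_frobenius p hℓ hℓp A hA σ hσ, map_natCast]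

theorem h10cycK_inertia {ℓ : ℕ} (hℓ : ℓ.Prime) (hℓp : ℓ ≠ p) (A : ValuationSubring Qbar)
    (hA : A.LiesOverPrime ℓ) (τ : Qbar ≃ₐ[ℚ] Qbar) (hτ : τ ∈ A.inertiaSubgroupIn ℚ) :
    h10cycK p φ τ = 1 := by
  rw [h10cycK, MonoidHom.comp_apply, h10cyc_inertia p hℓ hℓp A hA τ hτ, map_one]

theorem h10cycK_eq_one_of_fix (σ : Qbar ≃ₐ[ℚ] Qbar) (h : ∀ x ∈ h10cycField p, σ x = x) :
    h10cycK p φ σ = 1 := by
  rw [h10cycK, MonoidHom.comp_apply, h10cyc_eq_one_of_fix_cycField p σ h, map_one]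

/-- the `κ`-valued character on powers: `d (σ ^ k) = ℓ ^ k` at a Frobenius `σ` over `ℓ`. -/
theorem h10cycK_frobenius_pow {ℓ : ℕ} (hℓ : ℓ.Prime) (hℓp : ℓ ≠ p) (A : ValuationSubring Qbar)
    (hA : A.LiesOverPrime ℓ) (σ : Qbar ≃ₐ[ℚ] Qbar) (hσ : A.IsFrobeniusAt σ ℓ) (k : ℕ) :
    ((h10cycK p φ (σ ^ k) : κˣ) : κ) = (ℓ : κ) ^ k := by
  rw [map_pow, Units.val_pow_eq_pow_val, h10cycK_frobenius p φ hℓ hℓp A hA σ hσ]

end Kappa

end Cyc

end Fermat.Agent.S42x.Cyc.H10
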