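import Mathlib
import Fermat.Prelude.Def_ExtCitation_KummerBridge
import Fermat.Prelude.Def_EllipticCurve_FrobeniusTrace

/-!
# W7 (CYC): the mod-`p` cyclotomic character of `Gal(ℚ̄/ℚ)`

The character is the prelude's `ExtCitation.cycloChar p`.  We prove:

* `h5_cyc_spec` : `σ ζ = ζ ^ (χ σ).val` for every `ζ` with `ζ ^ p = 1`;
* `h5_cyc_frob` : `χ σ = ℓ` for every Frobenius `σ` at a valuation subring over `ℓ ≠ p`;
* `h5_cyc_inertia` : `χ σ = 1` for `σ` in the inertia subgroup at a valuation subring over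
  `ℓ ≠ p`;
* `h5_cyc_eq_one_iff` : `χ σ = 1` iff `σ` fixes the `p`-th roots of unity;
* `h5_cyc_level` : `χ` factors through a finite level;
* the `κ`-valued forms `h5_cycK`, `h5_cycK_frob`, `h5_cycK_inertia`, `h5_cycK_level`.
-/

set_option autoImplicit false

namespace Fermat.Agent.S42x.Cyc.H5

open ExtCitation

local notation "Qbar" => AlgebraicClosure ℚ
local notation "GQ" => (AlgebraicClosure ℚ ≃ₐ[ℚ] AlgebraicClosure ℚ)

variable (p : ℕ) [Fact p.Prime]

/-- `ℚ̄` has exactly `p` roots of unity of order dividing `p`. -/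
theorem h5_card (n : ℕ) [NeZero n] : Nat.card (rootsOfUnity n Qbar) = n :=
  IsAlgClosed.card_rootsOfUnity_eq Qbar n

theorem h5_neZero : NeZero p := ⟨(Fact.out : p.Prime).ne_zero⟩

/-- The defining property of the mod-`p` cyclotomic character. -/
theorem h5_cyc_spec (σ : GQ) (ζ : Qbar) (hζ : ζ ^ p = 1) :
    σ ζ = ζ ^ ((cycloChar p σ : (ZMod p)ˣ) : ZMod p).val := by
  have hp : NeZero p := h5_neZero p
  have hp0 : p ≠ 0 := hp.ne
  have hu : IsUnit ζ := IsUnit.of_pow_eq_one hζ hp0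
  obtain ⟨u, rfl⟩ := hu
  have hmem : u ∈ rootsOfUnity p Qbar := by
    rw [mem_rootsOfUnity]
    exact Units.ext (by simpa using hζ)
  exact modularCyclotomicCharacter.spec Qbar (card_rootsOfUnity_eq_self p)
    (σ : Qbar ≃+* Qbar) hmem

/-- Uniqueness: an exponent which works on all `p`-th roots of unity is the cyclotomic
character. -/
theorem h5_cyc_unique (σ : GQ) (c : ZMod p)
    (hc : ∀ ζ : Qbar, ζ ^ p = 1 → σ ζ = ζ ^ c.val) :
    ((cycloChar p σ : (ZMod p)ˣ) : ZMod p) = c := by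
  have hp : NeZero p := h5_neZero p
  symm
  refine modularCyclotomicCharacter.unique Qbar (card_rootsOfUnity_eq_self p)
    (σ : Qbar ≃+* Qbar) (c := c) ?_
  intro t ht
  have h1 : (t : Qbar) ^ p = 1 := by
    rw [mem_rootsOfUnity] at ht
    have := congrArg Units.val ht
    simpa using this
  exact hc t h1

/-- A primitive `p`-th root of unity in `ℚ̄`. -/
theorem h5_exists_zeta : ∃ ζ : Qbar, IsPrimitiveRoot ζ p := by
  have hp : NeZero p := h5_neZero p
  have : NeZero (p : Qbar) := ⟨Nat.cast_ne_zero.mpr hp.ne⟩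
  exact HasEnoughRootsOfUnity.exists_primitiveRoot Qbar p

/-- Exponents of equal powers agree modulo the order (fields). -/
theorem h5_modEq_of_pow_eq {F : Type*} [Field F] {x : F} (hx : x ≠ 0) {a b : ℕ}
    (h : x ^ a = x ^ b) : a ≡ b [MOD orderOf x] := by
  have h1 : (Units.mk0 x hx) ^ a = (Units.mk0 x hx) ^ b := Units.ext (by simpa using h)
  have h2 := pow_eq_pow_iff_modEq.mp h1
  rwa [← orderOf_units, Units.val_mk0] at h2

/-- It is enough to test the exponent on one primitive root. -/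
theorem h5_cyc_of_zeta (σ : GQ) {ζ : Qbar} (hζ : IsPrimitiveRoot ζ p) (n : ℕ)
    (h : σ ζ = ζ ^ n) : ((cycloChar p σ : (ZMod p)ˣ) : ZMod p) = (n : ZMod p) := by
  have hp : NeZero p := h5_neZero p
  have h1 := h5_cyc_spec p σ ζ hζ.pow_eq_one
  rw [h] at h1
  have h2 : n ≡ ((cycloChar p σ : (ZMod p)ˣ) : ZMod p).val [MOD p] := by
    have := h5_modEq_of_pow_eq (hζ.ne_zero hp.ne) h1
    rwa [← hζ.eq_orderOf] at this
  have h3 := (ZMod.natCast_eq_natCast_iff _ _ _).mpr h2
  rw [ZMod.natCast_zmod_val] at h3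
  exact h3.symm

theorem h5_cyc_eq_one_iff (σ : GQ) :
    cycloChar p σ = 1 ↔ ∀ ζ : Qbar, ζ ^ p = 1 → σ ζ = ζ := by
  have hp : NeZero p := h5_neZero p
  have hp1 : Fact (1 < p) := ⟨(Fact.out : p.Prime).one_lt⟩
  constructor
  · intro h ζ hζ
    have := h5_cyc_spec p σ ζ hζ
    rw [h, Units.val_one, ZMod.val_one, pow_one] at this
    exact this
  · intro h
    apply Units.ext
    rw [Units.val_one]
    apply h5_cyc_unique
    intro ζ hζ
    rw [ZMod.val_one, pow_one]
    exact h ζ hζ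

/-- The cyclotomic character factors through the finite level `ℚ(ζ_p)`. -/
theorem h5_cyc_level : ∃ K₀ : IntermediateField ℚ Qbar, FiniteDimensional ℚ K₀ ∧
    ∀ σ : GQ, (∀ x ∈ K₀, σ x = x) → cycloChar p σ = 1 := by
  obtain ⟨ζ, hζ⟩ := h5_exists_zeta p
  have hp : NeZero p := h5_neZero p
  have hint : IsIntegral ℚ ζ := by
    have h1 : IsIntegral ℤ ζ := hζ.isIntegral (Nat.pos_of_ne_zero hp.ne)
    exact h1.tower_top
  refine ⟨IntermediateField.adjoin ℚ {ζ}, IntermediateField.adjoin.finiteDimensional hint, ?_⟩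
  intro σ hσ
  have h1 : σ ζ = ζ := hσ ζ (IntermediateField.mem_adjoin_simple_self ℚ ζ)
  apply Units.ext
  rw [Units.val_one]
  have h2 := h5_cyc_of_zeta p σ hζ 1 (by rw [pow_one]; exact h1)
  rw [h2, Nat.cast_one]

/-! ### Frobenius and inertia -/

section Residue

variable {p}
variable {ℓ : ℕ} (A : ValuationSubring Qbar)

/-- Two distinct primes cannot both vanish in a nontrivial ring. -/
theorem h5_cast_ne_zero {R : Type*} [CommRing R] [Nontrivial R] (hℓ : ℓ.Prime) (hℓp : ℓ ≠ p)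
    (hℓR : (ℓ : R) = 0) : (p : R) ≠ 0 := by
  intro hpR
  have hcop : Nat.Coprime p ℓ :=
    (Nat.coprime_primes (Fact.out : p.Prime) hℓ).mpr (fun h => hℓp h.symm)
  have h1 : ((p : ℤ) * Nat.gcdA p ℓ + (ℓ : ℤ) * Nat.gcdB p ℓ : ℤ) = 1 := by
    have := Nat.gcd_eq_gcd_ab p ℓ
    rw [hcop.gcd_eq_one] at this
    exact_mod_cast this.symm
  have h2 := congrArg (Int.cast : ℤ → R) h1
  push_cast at h2
  rw [hpR, hℓR, zero_mul, zero_mul, add_zero] at h2
  exact zero_ne_one h2

theorem h5_residue_natCast_eq_zero (hA : A.LiesOverPrime ℓ) :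
    ((ℓ : ℕ) : IsLocalRing.ResidueField A) = 0 := by
  have h1 : ((ℓ : A) : Qbar) ∈ A.nonunits := by
    have : ((ℓ : A) : Qbar) = (ℓ : Qbar) := by push_cast; rfl
    rw [this]
    exact hA
  have h2 : (ℓ : A) ∈ IsLocalRing.maximalIdeal A := by
    rw [← ValuationSubring.coe_mem_nonunits_iff]
    exact h1
  have h3 : IsLocalRing.residue A (ℓ : A) = 0 := by
    rw [IsLocalRing.residue_eq_zero_iff]
    exact h2
  rw [← h3, map_natCast]

/-- An algebraic integer lies in every valuation subring. -/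
theorem h5_mem_of_isIntegral {x : Qbar} (hx : IsIntegral ℤ x) : x ∈ A := by
  have hx' : IsIntegral A x := hx.tower_top
  obtain ⟨y, hy⟩ := IsIntegrallyClosed.isIntegral_iff.mp hx'
  rw [← hy]
  exact y.2

/-- The key computation: an element of the decomposition group acting on the residue field as
`x ↦ x ^ n` has cyclotomic character `n` (residue characteristic `ℓ ≠ p`). -/
theorem h5_cyc_of_residue_pow (hℓ : ℓ.Prime) (hℓp : ℓ ≠ p) (hA : A.LiesOverPrime ℓ) (σ : GQ)
    (hσ : σ ∈ A.decompositionSubgroup ℚ) (n : ℕ)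
    (h : ∀ x : IsLocalRing.ResidueField A,
      (⟨σ, hσ⟩ : A.decompositionSubgroup ℚ) • x = x ^ n) :
    ((cycloChar p σ : (ZMod p)ˣ) : ZMod p) = (n : ZMod p) := by
  have hp : NeZero p := h5_neZero p
  have hpp : p.Prime := Fact.out
  obtain ⟨ζ, hζ⟩ := h5_exists_zeta p
  have hζA : ζ ∈ A := h5_mem_of_isIntegral A (hζ.isIntegral (Nat.pos_of_ne_zero hp.ne))
  set d : ℕ := ((cycloChar p σ : (ZMod p)ˣ) : ZMod p).val with hd
  have hσζ : σ ζ = ζ ^ d := h5_cyc_spec p σ ζ hζ.pow_eq_one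
  set z : A := ⟨ζ, hζA⟩ with hz
  set zb : IsLocalRing.ResidueField A := IsLocalRing.residue A z with hzb
  -- the action on `z`
  have hact : (⟨σ, hσ⟩ : A.decompositionSubgroup ℚ) • z = z ^ d := by
    apply Subtype.ext
    change σ ζ = ((z ^ d : A) : Qbar)
    rw [hσζ]
    push_cast
    rfl
  have h1 : zb ^ d = zb ^ n := by
    rw [← h zb, hzb, ← IsLocalRing.ResidueField.residue_smul, hact, map_pow]
  have hzp : zb ^ p = 1 := by
    rw [hzb, ← map_pow]
    have : z ^ p = 1 := by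
      apply Subtype.ext
      push_cast
      exact hζ.pow_eq_one
    rw [this, map_one]
  have hpne : ((p : ℕ) : IsLocalRing.ResidueField A) ≠ 0 :=
    h5_cast_ne_zero hℓ hℓp (h5_residue_natCast_eq_zero A hA)
  -- `zb` has order exactly `p`
  have hord : orderOf zb = p := by
    have hdvd : orderOf zb ∣ p := orderOf_dvd_of_pow_eq_one hzp
    rcases (Nat.dvd_prime hpp).mp hdvd with h1' | h1'
    · exfalso
      rw [orderOf_eq_one_iff] at h1'
      have hsum : ∑ i ∈ Finset.range p, ζ ^ i = 0 := hζ.geom_sum_eq_zero hpp.one_lt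
      have hsumA : ∑ i ∈ Finset.range p, z ^ i = 0 := by
        apply Subtype.ext
        push_cast
        exact hsum
      have := congrArg (IsLocalRing.residue A) hsumA
      rw [map_sum, map_zero] at this
      simp only [map_pow] at this
      rw [← hzb, h1'] at this
      simp only [one_pow, Finset.sum_const, Finset.card_range, nsmul_eq_mul, mul_one] at this
      exact hpne this
    · exact h1'
  have hzb0 : zb ≠ 0 := by
    intro h0
    rw [h0, zero_pow hp.ne] at hzp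
    exact zero_ne_one hzp
  have h2 : d ≡ n [MOD p] := by
    rw [← hord]
    exact h5_modEq_of_pow_eq hzb0 h1
  have h3 := (ZMod.natCast_eq_natCast_iff _ _ _).mpr h2
  rw [hd, ZMod.natCast_zmod_val] at h3
  exact h3

/-- **(CYC), Frobenius clause.** The cyclotomic character of a Frobenius at `ℓ ≠ p` is `ℓ`. -/
theorem h5_cyc_frob (hℓ : ℓ.Prime) (hℓp : ℓ ≠ p) (hA : A.LiesOverPrime ℓ) (σ : GQ)
    (hσ : A.IsFrobeniusAt σ ℓ) :
    ((cycloChar p σ : (ZMod p)ˣ) : ZMod p) = (ℓ : ZMod p) := by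
  obtain ⟨hσ', h⟩ := hσ
  exact h5_cyc_of_residue_pow A hℓ hℓp hA σ hσ' ℓ h

/-- **(CYC), inertia clause.** The cyclotomic character is trivial on inertia at `ℓ ≠ p`. -/
theorem h5_cyc_inertia (hℓ : ℓ.Prime) (hℓp : ℓ ≠ p) (hA : A.LiesOverPrime ℓ) (σ : GQ)
    (hσ : σ ∈ A.inertiaSubgroupIn ℚ) : cycloChar p σ = 1 := by
  obtain ⟨g, hg, rfl⟩ := hσ
  have hg' : ∀ x : IsLocalRing.ResidueField A, g • x = x := by
    intro x
    have : MulSemiringAction.toRingAut (A.decompositionSubgroup ℚ)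
        (IsLocalRing.ResidueField A) g = 1 := hg
    have h2 := congrArg (fun e : RingAut (IsLocalRing.ResidueField A) => e x) this
    exact h2
  apply Units.ext
  rw [Units.val_one]
  have := h5_cyc_of_residue_pow (p := p) A hℓ hℓp hA g.1 g.2 1 (fun x => by
    rw [pow_one]; exact hg' x)
  rw [Nat.cast_one] at this
  exact this

end Residue

/-! ### The `κ`-valued form -/

section Kappa

variable (κ : Type*) [Field κ] [Algebra (ZMod p) κ]

/-- The mod-`p` cyclotomic character with values in a field `κ` of characteristic `p`. -/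
noncomputable def h5_cycK : GQ →* κˣ :=
  (Units.map (algebraMap (ZMod p) κ : ZMod p →* κ)).comp (cycloChar p)

theorem h5_cycK_apply (σ : GQ) :
    ((h5_cycK p κ σ : κˣ) : κ) = algebraMap (ZMod p) κ ((cycloChar p σ : (ZMod p)ˣ) : ZMod p) :=
  rfl

variable {p}

theorem h5_cycK_frob {ℓ : ℕ} (hℓ : ℓ.Prime) (hℓp : ℓ ≠ p) (A : ValuationSubring Qbar)
    (hA : A.LiesOverPrime ℓ) (σ : GQ) (hσ : A.IsFrobeniusAt σ ℓ) :
    ((h5_cycK p κ σ : κˣ) : κ) = (ℓ : κ) := by
  rw [h5_cycK_apply, h5_cyc_frob A hℓ hℓp hA σ hσ, map_natCast]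

theorem h5_cycK_inertia {ℓ : ℕ} (hℓ : ℓ.Prime) (hℓp : ℓ ≠ p) (A : ValuationSubring Qbar)
    (hA : A.LiesOverPrime ℓ) (σ : GQ) (hσ : σ ∈ A.inertiaSubgroupIn ℚ) :
    h5_cycK p κ σ = 1 := by
  rw [h5_cycK, MonoidHom.comp_apply, h5_cyc_inertia A hℓ hℓp hA σ hσ, map_one]

variable (p)

theorem h5_cycK_level : ∃ K₀ : IntermediateField ℚ Qbar, FiniteDimensional ℚ K₀ ∧
    ∀ σ : GQ, (∀ x ∈ K₀, σ x = x) → h5_cycK p κ σ = 1 := by
  obtain ⟨K₀, hK₀, h⟩ := h5_cyc_level p
  refine ⟨K₀, hK₀, fun σ hσ => ?_⟩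
  rw [h5_cycK, MonoidHom.comp_apply, h σ hσ, map_one]

/-- The action on `p`-th roots of unity through the `κ`-valued character: the exponent is any
natural number lifting the character. -/
theorem h5_cycK_of_zeta (σ : GQ) {ζ : Qbar} (hζ : IsPrimitiveRoot ζ p) (n : ℕ)
    (h : σ ζ = ζ ^ n) : ((h5_cycK p κ σ : κˣ) : κ) = (n : κ) := by
  rw [h5_cycK_apply, h5_cyc_of_zeta p σ hζ n h, map_natCast]

end Kappa

end Fermat.Agent.S42x.Cyc.H5
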