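import Fermat.Agent.S42x.Cyc.H5_Level
import Fermat.Agent.S13.W.H24_Tweak
import Fermat.Prelude.Def_FreyPackage_EigenformResidualAttachment

/-!
# W7 (FREY): the mod-`p` representation of the Frey curve has a finite level

* `h5_frey_level` : `GaloisFactorsThroughFiniteLevel` for the `p`-torsion of the Frey curve
  (finiteness of `E[p]` is helper24's `h24_stTweak`, in the closure of S13);
* `h5_frey_attach` : the third conjunct of `EigenformResidualAttachmentAt` for any `ρ` of
  finite level;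
* `h5_attachment_of_core` : `P.EigenformResidualAttachmentAt M` from the (CORE) data
  `(K, V, ρ, ψ)` with `ρ` of finite level.
-/

set_option autoImplicit false

namespace Fermat.Agent.S42x.Cyc.H5

open WeierstrassCurve WeierstrassCurve.Affine WeierstrassCurve.Affine.Point
open scoped WeierstrassCurve.Affine CongruenceSubgroup

local notation "Qbar" => AlgebraicClosure ℚ
local notation "GQ" => (AlgebraicClosure ℚ ≃ₐ[ℚ] AlgebraicClosure ℚ)

/-- `E[p]` of the Frey curve is finite, for any decidability instance. -/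
theorem h5_frey_finite (P : FreyPackage) [inst : DecidableEq Qbar] :
    Finite (Submodule.torsionBy ℤ (P.freyCurve⁄Qbar).Point P.p) := by
  have h := (Fermat.Agent.S13.W.H24.h24_stTweak P).2.1
  obtain rfl : inst = instDecEqAlgebraicClosureRat := Subsingleton.elim _ _
  exact h

/-- **(FREY)**: the mod-`p` representation of the Frey curve factors through a finite level. -/
theorem h5_frey_level (P : FreyPackage) [DecidableEq Qbar] :
    GaloisFactorsThroughFiniteLevel
      (galoisRepModuleEnd (S := ℚ) (K := Qbar) P.freyCurve P.p) :=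
  h5_torsion_level P.freyCurve P.p (h5_frey_finite P)

/-- **(FREY), S42 spelling**: for every `ρ` of finite level there is ONE finite Galois number
field through which both the Frey representation and `ρ` factor. -/
theorem h5_frey_attach (P : FreyPackage) [DecidableEq Qbar] {K : Type} [Field K] {V : Type}
    [AddCommGroup V] [Module K V] (ρ : Representation K GQ V)
    (hρ : ∃ L : IntermediateField ℚ Qbar, FiniteDimensional ℚ L ∧
      ∀ σ : GQ, (∀ x ∈ L, σ x = x) → ρ σ = 1) :
    ∃ (F : Type) (_ : Field F) (_ : NumberField F) (_ : IsGalois ℚ F)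
      (_ : Algebra F (AlgebraicClosure ℚ)) (_ : IsScalarTower ℚ F (AlgebraicClosure ℚ)),
      (AlgEquiv.restrictNormalHom (F := ℚ) (K₁ := AlgebraicClosure ℚ) F).ker ≤
        (galoisRepModuleEnd (S := ℚ) (K := AlgebraicClosure ℚ) P.freyCurve P.p).ker ⊓
          ρ.ker :=
  h5_exists_numberField_inf _ ρ (h5_frey_level P) hρ

/-- **(ASM-S42), the wrapper**: the frozen property `EigenformResidualAttachmentAt` from the
(CORE) data with `ρ` of finite level. -/
theorem h5_attachment_of_core (P : FreyPackage) (M : ℕ)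
    (hcore : ∀ (g : CuspForm (CongruenceSubgroup.Gamma0 M) 2), g.IsNormalizedEigenform →
      ∀ (𝔪 : Ideal (integralClosure ℤ ℂ)), 𝔪.IsMaximal → (P.p : integralClosure ℤ ℂ) ∈ 𝔪 →
        ∃ (K : Type) (_ : Field K) (_ : Algebra (ZMod P.p) K)
          (V : Type) (_ : AddCommGroup V) (_ : Module K V)
          (ρ : Representation K (AlgebraicClosure ℚ ≃ₐ[ℚ] AlgebraicClosure ℚ) V)
          (ψ : integralClosure ℤ ℂ →+* K),
          𝔪 ≤ RingHom.ker ψ ∧
          Module.finrank K V = 2 ∧
          (∃ L : IntermediateField ℚ Qbar, FiniteDimensional ℚ L ∧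
            ∀ σ : GQ, (∀ x ∈ L, σ x = x) → ρ σ = 1) ∧
          (∀ ℓ : ℕ, ℓ.Prime → ¬ ℓ ∣ M → ℓ ≠ P.p →
            ∀ A : ValuationSubring (AlgebraicClosure ℚ), A.LiesOverPrime ℓ →
              ∀ τ : AlgebraicClosure ℚ ≃ₐ[ℚ] AlgebraicClosure ℚ, A.IsFrobeniusAt τ ℓ →
                ∃ a : integralClosure ℤ ℂ, (a : ℂ) = ModularFormClass.qCoeff g ℓ ∧
                  LinearMap.trace K V (ρ τ) = ψ a) ∧
          (∀ ℓ : ℕ, ℓ.Prime → ¬ ℓ ∣ M → ℓ ≠ P.p →
            ∀ A : ValuationSubring (AlgebraicClosure ℚ), A.LiesOverPrime ℓ →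
              ∀ τ : AlgebraicClosure ℚ ≃ₐ[ℚ] AlgebraicClosure ℚ, A.IsFrobeniusAt τ ℓ →
                LinearMap.det (ρ τ) = (ℓ : K))) :
    P.EigenformResidualAttachmentAt M := by
  intro g hg 𝔪 h𝔪 hp
  obtain ⟨K, iK, iA, V, iV, iM, ρ, ψ, h1, h2, h3, h4, h5⟩ := hcore g hg 𝔪 h𝔪 hp
  obtain ⟨F, iF, iN, iG, iAF, iT, hF⟩ := h5_frey_attach P ρ h3
  exact ⟨K, iK, iA, V, iV, iM, ρ, ψ, F, iF, iN, iG, iAF, iT, h1, h2, hF, h4, h5⟩

end Fermat.Agent.S42x.Cyc.H5
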