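import Fermat.Agent.S42x.Cyc.H10_Cyc
import Fermat.Agent.S42x.Asm.Defs

/-!
# W7 (CYC): `Asm.StCyc p` VERBATIM

`h10_stCyc p : Fermat.Agent.S42x.Asm.StCyc p` for a prime `p`, with `d := ExtCitation.cycloChar p`
(the prelude's mod `p` cyclotomic character) and `K := ℚ(μ_p)`.
-/

set_option autoImplicit false

noncomputable section

namespace Fermat.Agent.S42x.Cyc.H10

/-- **(CYC)**: the mod `p` cyclotomic character, in the spelling of `Asm.StCyc`. -/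
theorem h10_stCyc (p : ℕ) [Fact p.Prime] : Fermat.Agent.S42x.Asm.StCyc p :=
  ⟨ExtCitation.cycloChar p,
    fun _ hℓ hℓp A hA =>
      ⟨fun τ hτ => h10cyc_inertia p hℓ hℓp A hA τ hτ,
        fun σ hσ => h10cyc_frobenius p hℓ hℓp A hA σ hσ⟩,
    h10cycField p, inferInstance, h10cyc_eq_one_of_fix_cycField p⟩

/-- **(CYC)** with the character named: the witness of `h10_stCyc` is the prelude's
`ExtCitation.cycloChar p`, and the level `ℚ(μ_p)` is Galois over `ℚ`. -/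
theorem h10_stCyc_explicit (p : ℕ) [Fact p.Prime] :
    (∀ ℓ : ℕ, ℓ.Prime → ℓ ≠ p → ∀ A : ValuationSubring (AlgebraicClosure ℚ),
      A.LiesOverPrime ℓ →
      (∀ τ ∈ A.inertiaSubgroupIn ℚ, ExtCitation.cycloChar p τ = 1) ∧
      ∀ σ : AlgebraicClosure ℚ ≃ₐ[ℚ] AlgebraicClosure ℚ, A.IsFrobeniusAt σ ℓ →
        ((ExtCitation.cycloChar p σ : (ZMod p)ˣ) : ZMod p) = (ℓ : ZMod p)) ∧
    FiniteDimensional ℚ (h10cycField p) ∧ IsGalois ℚ (h10cycField p) ∧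
      ∀ σ : AlgebraicClosure ℚ ≃ₐ[ℚ] AlgebraicClosure ℚ,
        (∀ x ∈ h10cycField p, σ x = x) → ExtCitation.cycloChar p σ = 1 :=
  ⟨fun _ hℓ hℓp A hA =>
      ⟨fun τ hτ => h10cyc_inertia p hℓ hℓp A hA τ hτ,
        fun σ hσ => h10cyc_frobenius p hℓ hℓp A hA σ hσ⟩,
    inferInstance, inferInstance, h10cyc_eq_one_of_fix_cycField p⟩

end Fermat.Agent.S42x.Cyc.H10
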