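import Mathlib
import Fermat.Agent.S14x.Glue.H24_Galois
import Fermat.Agent.S37x.Move.H17_Values

/-!
# W7 (CYC) (helper28): the mod-`p` cyclotomic character at Frobenius and inertia

`d := ExtCitation.cycloChar p : Gal(ℚ̄/ℚ) →* (ZMod p)ˣ` (prelude).

* `cyc_apply` : `σ ζ = ζ ^ d(σ)` for every `p`-th root of unity `ζ` of `ℚ̄`;
* `cyc_residue_injective` : for a valuation ring `A` of `ℚ̄` over `ℓ ≠ p` the reduction modulo
  the maximal ideal of `A` is injective on `μ_p`;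
* `cyc_frob` : `d(σ) = ℓ` for every Frobenius `σ` at `A` over `ℓ ≠ p`;
* `cyc_inertia` : `d(τ) = 1` for `τ` in the inertia group at `A` over `ℓ ≠ p`;
* `cyc_eq_one_of_fix`, `cyc_ker` : `d` is trivial exactly on `Gal(ℚ̄/ℚ(ζ_p))`.
-/

set_option autoImplicit false
set_option linter.unusedSectionVars false
set_option linter.style.haveILetI false

noncomputable section

namespace Fermat.Agent.S42x.Cyc.H28

open ExtCitation Fermat.Agent.S14x Fermat.Agent.S14x.Glue Fermat.Agent.S37x.Asm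
  Fermat.Agent.S37x.Move.H17

local notation "Qbar" => AlgebraicClosure ℚ

variable (p : ℕ) [Fact p.Prime]

/-- `σ ζ = ζ ^ d(σ)` on all of `μ_p(ℚ̄)`. -/
theorem cyc_apply (σ : GQ) (ζ : Qbar) (hζ : ζ ^ p = 1) :
    σ ζ = ζ ^ ((cycloChar p σ : (ZMod p)ˣ) : ZMod p).val := by
  have hpp : p.Prime := Fact.out
  obtain ⟨k, -, rfl⟩ := (zeta_spec p).eq_pow_of_pow_eq_one hζ
  rw [map_pow, apply_zeta, ← pow_mul, ← pow_mul, mul_comm]

section Residue

variable {p}
variable (A : ValuationSubring Qbar)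

/-- roots of unity lie in every valuation ring -/
theorem cyc_mem {ζ : Qbar} (hζ : ζ ^ p = 1) : ζ ∈ A := by
  have hpp : p.Prime := Fact.out
  rcases A.mem_or_inv_mem ζ with h | h
  · exact h
  · have h0 : ζ ≠ 0 := by
      rintro rfl
      rw [zero_pow hpp.ne_zero] at hζ
      exact zero_ne_one hζ
    have h1 : ζ = ζ⁻¹ ^ (p - 1) := by
      have h2 : ζ * ζ ^ (p - 1) = 1 := by
        rw [← pow_succ', Nat.sub_add_cancel hpp.pos, hζ]
      rw [inv_pow]
      exact eq_inv_of_mul_eq_one_left h2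
    rw [h1]
    exact pow_mem h _

/-- the residue characteristic -/
theorem cyc_res_natCast_eq_zero {ℓ : ℕ} (hA : A.LiesOverPrime ℓ) :
    IsLocalRing.residue A (ℓ : A) = 0 := by
  have h1 : (ℓ : Qbar) ∈ A.nonunits := hA
  rw [ValuationSubring.mem_nonunits_iff_exists_mem_maximalIdeal] at h1
  obtain ⟨ha, hm⟩ := h1
  rw [IsLocalRing.residue_eq_zero_iff]
  have e : (ℓ : A) = ⟨(ℓ : Qbar), ha⟩ := Subtype.ext (by push_cast; rfl)
  rw [e]
  exact hm

/-- `p` is invertible in the residue field of `A` over `ℓ ≠ p` -/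
theorem cyc_res_natCast_ne_zero {ℓ : ℕ} (hℓ : ℓ.Prime) (hℓp : ℓ ≠ p)
    (hA : A.LiesOverPrime ℓ) : IsLocalRing.residue A (p : A) ≠ 0 := by
  have hpp : p.Prime := Fact.out
  intro h0
  have hl := cyc_res_natCast_eq_zero A hA
  have hcop : Nat.Coprime p ℓ := (Nat.coprime_primes hpp hℓ).mpr (Ne.symm hℓp)
  have hb := Nat.Coprime.isCoprime hcop
  obtain ⟨a, b, hab⟩ := hb
  have h1 := congrArg (fun z : ℤ => IsLocalRing.residue A (z : A)) hab
  simp only [Int.cast_add, Int.cast_mul, Int.cast_natCast, Int.cast_one, map_add, map_mul,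
    map_one, h0, hl, mul_zero, add_zero] at h1
  exact zero_ne_one h1

/-- a `p`-th root of unity which is `≡ 1` modulo the maximal ideal of `A` (over `ℓ ≠ p`)
is `1` -/
theorem cyc_eq_one_of_res {ℓ : ℕ} (hℓ : ℓ.Prime) (hℓp : ℓ ≠ p) (hA : A.LiesOverPrime ℓ)
    {η : Qbar} (hη : η ^ p = 1) (hres : IsLocalRing.residue A ⟨η, cyc_mem A hη⟩ = 1) :
    η = 1 := by
  by_contra hne
  have hsum : ∑ i ∈ Finset.range p, η ^ i = 0 := by
    have h1 := mul_geom_sum η p
    rw [hη, sub_self] at h1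
    rcases mul_eq_zero.mp h1 with h2 | h2
    · exact absurd (sub_eq_zero.mp h2) hne
    · exact h2
  have hsumA : ∑ i ∈ Finset.range p, (⟨η, cyc_mem A hη⟩ : A) ^ i = 0 := by
    apply Subtype.ext
    push_cast
    exact hsum
  have h2 := congrArg (IsLocalRing.residue A) hsumA
  rw [map_sum, map_zero] at h2
  simp only [map_pow, hres, one_pow, Finset.sum_const, Finset.card_range, nsmul_eq_mul,
    mul_one] at h2
  apply cyc_res_natCast_ne_zero A hℓ hℓp hA
  rw [map_natCast]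
  exact h2

/-- **reduction is injective on `μ_p`** -/
theorem cyc_residue_injective {ℓ : ℕ} (hℓ : ℓ.Prime) (hℓp : ℓ ≠ p) (hA : A.LiesOverPrime ℓ)
    {ζ ζ' : Qbar} (hζ : ζ ^ p = 1) (hζ' : ζ' ^ p = 1)
    (hres : IsLocalRing.residue A ⟨ζ, cyc_mem A hζ⟩ = IsLocalRing.residue A ⟨ζ', cyc_mem A hζ'⟩) :
    ζ = ζ' := by
  have hpp : p.Prime := Fact.out
  have h0 : ζ' ≠ 0 := by
    rintro rfl
    rw [zero_pow hpp.ne_zero] at hζ'
    exact zero_ne_one hζ'
  have hη : (ζ * ζ'⁻¹) ^ p = 1 := by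
    rw [mul_pow, inv_pow, hζ, hζ', inv_one, mul_one]
  have hinv : ζ'⁻¹ ^ p = 1 := by rw [inv_pow, hζ', inv_one]
  have hprod : (⟨ζ * ζ'⁻¹, cyc_mem A hη⟩ : A) * ⟨ζ', cyc_mem A hζ'⟩ = ⟨ζ, cyc_mem A hζ⟩ := by
    apply Subtype.ext
    show ζ * ζ'⁻¹ * ζ' = ζ
    rw [mul_assoc, inv_mul_cancel₀ h0, mul_one]
  have hu : IsLocalRing.residue A ⟨ζ', cyc_mem A hζ'⟩ ≠ 0 := by
    intro h
    have h1 : (⟨ζ', cyc_mem A hζ'⟩ : A) ^ p = 1 := Subtype.ext (by push_cast; exact hζ')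
    have h2 := congrArg (IsLocalRing.residue A) h1
    rw [map_pow, h, zero_pow hpp.ne_zero, map_one] at h2
    exact zero_ne_one h2
  have h3 := congrArg (IsLocalRing.residue A) hprod
  rw [map_mul, hres] at h3
  have h4 : IsLocalRing.residue A ⟨ζ * ζ'⁻¹, cyc_mem A hη⟩ = 1 := by
    have := mul_right_cancel₀ hu (h3.trans (one_mul _).symm)
    exact this
  have h5 := cyc_eq_one_of_res A hℓ hℓp hA hη h4
  have h6 : ζ = ζ * ζ'⁻¹ * ζ' := by rw [mul_assoc, inv_mul_cancel₀ h0, mul_one]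
  rw [h6, h5, one_mul]

end Residue

section Values

variable (A : ValuationSubring Qbar) {ℓ : ℕ} (hℓ : ℓ.Prime) (hℓp : ℓ ≠ p)
  (hA : A.LiesOverPrime ℓ)

include hℓ hℓp hA in
/-- **the cyclotomic character at a Frobenius**: `d(σ) = ℓ`. -/
theorem cyc_frob (σ : GQ) (hσ : A.IsFrobeniusAt σ ℓ) :
    ((cycloChar p σ : (ZMod p)ˣ) : ZMod p) = (ℓ : ZMod p) := by
  have hz : zeta p ^ p = 1 := (zeta_spec p).pow_eq_one
  have hσz : (σ (zeta p)) ^ p = 1 := by rw [← map_pow, hz, map_one]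
  have hzl : (zeta p ^ ℓ) ^ p = 1 := by rw [← pow_mul, mul_comm, pow_mul, hz, one_pow]
  have h1 := h17_res_frob (A := A) hσ (zeta p) (cyc_mem A hz) (cyc_mem A hσz)
  have h2 : σ (zeta p) = zeta p ^ ℓ := by
    refine cyc_residue_injective A hℓ hℓp hA hσz hzl ?_
    have e : (⟨zeta p ^ ℓ, cyc_mem A hzl⟩ : A) = ⟨zeta p, cyc_mem A hz⟩ ^ ℓ :=
      Subtype.ext (by push_cast; rfl)
    rw [e, map_pow]
    exact h1
  exact (natCast_eq_cycloChar h2).symm

include hℓ hℓp hA in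
/-- **the cyclotomic character is trivial on inertia** at `A` over `ℓ ≠ p`. -/
theorem cyc_inertia (τ : GQ) (hτ : τ ∈ A.inertiaSubgroupIn ℚ) : cycloChar p τ = 1 := by
  have hz : zeta p ^ p = 1 := (zeta_spec p).pow_eq_one
  have hτz : (τ (zeta p)) ^ p = 1 := by rw [← map_pow, hz, map_one]
  have h1 := h17_res_inertia (A := A) hτ (zeta p) (cyc_mem A hz) (cyc_mem A hτz)
  rw [cycloChar_eq_one_iff]
  exact cyc_residue_injective A hℓ hℓp hA hτz hz h1

end Values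

/-- `d` is trivial on `Gal(ℚ̄/ℚ(ζ_p))`. -/
theorem cyc_eq_one_of_fix (σ : GQ) (h : ∀ x ∈ Kc p, σ x = x) : cycloChar p σ = 1 := by
  rw [← mem_fixingSubgroup_Kc_iff, IntermediateField.mem_fixingSubgroup_iff]
  exact h

theorem cyc_ker : (cycloChar p).ker = (Kc p).fixingSubgroup :=
  (fixingSubgroup_Kc (p := p)).symm

end Fermat.Agent.S42x.Cyc.H28
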