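import Mathlib
import Fermat.Prelude.Def_GaloisRep_Residual
import Fermat.Prelude.Def_EllipticCurve_FrobeniusTrace

/-!
# W7 (FREY), generic part: finite levels and Galois number fields

* `h5_exists_numberField` : every finite level `L ⊆ ℚ̄` is contained in a finite Galois number
  field `F` (a `Type` with `Algebra F ℚ̄`), in the spelling of the frozen statement S42: every
  `σ` in the kernel of `AlgEquiv.restrictNormalHom F` fixes `L` pointwise;
* `h5_ker_le_of_level` : hence `(restrictNormalHom F).ker ≤ ρ.ker` for every `ρ` of level `L`;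
* `h5_level_inf` : two monoid homs of finite level have a common finite level;
* `h5_torsion_level` : the Galois representation on the `n`-torsion points of a Weierstrass
  curve over `ℚ` factors through a finite level as soon as the torsion is finite.
-/

set_option autoImplicit false

namespace Fermat.Agent.S42x.Cyc.H5

open WeierstrassCurve WeierstrassCurve.Affine WeierstrassCurve.Affine.Point
open scoped WeierstrassCurve.Affine

local notation "Qbar" => AlgebraicClosure ℚ
local notation "GQ" => (AlgebraicClosure ℚ ≃ₐ[ℚ] AlgebraicClosure ℚ)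

theorem h5_isAlgClosure_rat : IsAlgClosure ℚ (AlgebraicClosure ℚ) :=
  (inferInstance : @IsAlgClosure ℚ (AlgebraicClosure ℚ) _ _ (AlgebraicClosure.instAlgebra ℚ) _)

theorem h5_normal_rat : Normal ℚ (AlgebraicClosure ℚ) :=
  haveI := h5_isAlgClosure_rat
  IsAlgClosure.normal ℚ Qbar

theorem h5_isIntegral_rat (x : Qbar) : IsIntegral ℚ x :=
  haveI := h5_isAlgClosure_rat
  (IsAlgClosure.isAlgebraic.isAlgebraic x).isIntegral

/-- Every finite level is contained in a finite Galois number field (a `Type`), in the spelling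
of the frozen statement S42. -/
theorem h5_exists_numberField (L : IntermediateField ℚ Qbar) [FiniteDimensional ℚ L] :
    ∃ (F : Type) (_ : Field F) (_ : NumberField F) (_ : IsGalois ℚ F) (_ : Algebra F Qbar)
      (_ : IsScalarTower ℚ F Qbar),
      ∀ σ : GQ, σ ∈ (AlgEquiv.restrictNormalHom (F := ℚ) (K₁ := Qbar) F).ker →
        ∀ x ∈ L, σ x = x := by
  let N : IntermediateField ℚ Qbar := IntermediateField.normalClosure ℚ L Qbar
  have hnQ : Normal ℚ Qbar := h5_normal_rat
  have hfd : FiniteDimensional ℚ N := normalClosure.is_finiteDimensional ℚ L Qbar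
  have hnor : Normal ℚ N := normalClosure.normal ℚ L Qbar
  have hnf : NumberField N := NumberField.mk
  have hgal : IsGalois ℚ N := IsGalois.mk
  refine ⟨N, inferInstance, hnf, ?_, inferInstance, ?_, ?_⟩
  · exact hgal
  · infer_instance
  · intro σ hσ x hx
    have hxN : x ∈ N := IntermediateField.le_normalClosure L hx
    have h1 := AlgEquiv.restrictNormal_commutes σ N ⟨x, hxN⟩
    have h2 : σ.restrictNormal N = 1 := hσ
    rw [h2] at h1
    exact h1.symm

/-- A monoid hom of level `L` is trivial on the kernel of the restriction to the number field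
of `h5_exists_numberField`. -/
theorem h5_exists_numberField_ker {M : Type*} [MulOneClass M] (ρ : GQ →* M)
    (L : IntermediateField ℚ Qbar) [FiniteDimensional ℚ L]
    (hρ : ∀ σ : GQ, (∀ x ∈ L, σ x = x) → ρ σ = 1) :
    ∃ (F : Type) (_ : Field F) (_ : NumberField F) (_ : IsGalois ℚ F) (_ : Algebra F Qbar)
      (_ : IsScalarTower ℚ F Qbar),
      (∀ σ : GQ, σ ∈ (AlgEquiv.restrictNormalHom (F := ℚ) (K₁ := Qbar) F).ker →
        ∀ x ∈ L, σ x = x) ∧
      ∀ σ : GQ, σ ∈ (AlgEquiv.restrictNormalHom (F := ℚ) (K₁ := Qbar) F).ker → ρ σ = 1 := by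
  obtain ⟨F, i1, i2, i3, i4, i5, h⟩ := h5_exists_numberField L
  exact ⟨F, i1, i2, i3, i4, i5, h, fun σ hσ => hρ σ (h σ hσ)⟩

/-- Two homs of finite level have a common finite level. -/
theorem h5_level_sup {M M' : Type*} [MulOneClass M] [MulOneClass M'] (ρ : GQ →* M)
    (ρ' : GQ →* M')
    (hρ : ∃ L : IntermediateField ℚ Qbar, FiniteDimensional ℚ L ∧
      ∀ σ : GQ, (∀ x ∈ L, σ x = x) → ρ σ = 1)
    (hρ' : ∃ L : IntermediateField ℚ Qbar, FiniteDimensional ℚ L ∧
      ∀ σ : GQ, (∀ x ∈ L, σ x = x) → ρ' σ = 1) :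
    ∃ L : IntermediateField ℚ Qbar, FiniteDimensional ℚ L ∧
      ∀ σ : GQ, (∀ x ∈ L, σ x = x) → ρ σ = 1 ∧ ρ' σ = 1 := by
  obtain ⟨L, hL, h⟩ := hρ
  obtain ⟨L', hL', h'⟩ := hρ'
  refine ⟨L ⊔ L', IntermediateField.finiteDimensional_sup L L', fun σ hσ => ⟨?_, ?_⟩⟩
  · exact h σ fun x hx => hσ x ((le_sup_left : L ≤ L ⊔ L') hx)
  · exact h' σ fun x hx => hσ x ((le_sup_right : L' ≤ L ⊔ L') hx)

/-- **The third conjunct of `EigenformResidualAttachmentAt`, generic form**: two monoid homs of
finite level are both trivial on the kernel of the restriction to ONE finite Galois number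
field. -/
theorem h5_exists_numberField_inf {M M' : Type*} [Monoid M] [Monoid M'] (ρ : GQ →* M)
    (ρ' : GQ →* M')
    (hρ : ∃ L : IntermediateField ℚ Qbar, FiniteDimensional ℚ L ∧
      ∀ σ : GQ, (∀ x ∈ L, σ x = x) → ρ σ = 1)
    (hρ' : ∃ L : IntermediateField ℚ Qbar, FiniteDimensional ℚ L ∧
      ∀ σ : GQ, (∀ x ∈ L, σ x = x) → ρ' σ = 1) :
    ∃ (F : Type) (_ : Field F) (_ : NumberField F) (_ : IsGalois ℚ F) (_ : Algebra F Qbar)
      (_ : IsScalarTower ℚ F Qbar),
      (AlgEquiv.restrictNormalHom (F := ℚ) (K₁ := Qbar) F).ker ≤ ρ.ker ⊓ ρ'.ker := by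
  obtain ⟨L, hL, h⟩ := h5_level_sup ρ ρ' hρ hρ'
  obtain ⟨F, i1, i2, i3, i4, i5, hF⟩ := h5_exists_numberField L
  refine ⟨F, i1, i2, i3, i4, i5, fun σ hσ => ?_⟩
  have := h σ (hF σ hσ)
  exact ⟨MonoidHom.mem_ker.mpr this.1, MonoidHom.mem_ker.mpr this.2⟩

/-! ### The torsion representation of a Weierstrass curve -/

section Torsion

variable [DecidableEq Qbar] (W : WeierstrassCurve ℚ) (n : ℕ)

/-- The coordinates of a point. -/
def h5_coords : (W⁄Qbar).Point → Set Qbar
  | 0 => ∅
  | .some x y _ => {x, y}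

omit [DecidableEq Qbar] in
theorem h5_coords_finite (Q : (W⁄Qbar).Point) : (h5_coords W Q).Finite := by
  cases Q with
  | zero => exact Set.finite_empty
  | @some x y h => exact (Set.finite_singleton y).insert x

theorem h5_smul_eq_of_coords (σ : GQ) (Q : (W⁄Qbar).Point)
    (h : ∀ x ∈ h5_coords W Q, σ x = x) : σ • Q = Q := by
  cases Q with
  | zero => rfl
  | @some x y hxy =>
    have hx : σ x = x := h x (by simp [h5_coords])
    have hy : σ y = y := h y (by simp [h5_coords])
    rw [algEquiv_smul_def, Point.map_some]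
    congr 1

/-- **(FREY), generic form**: the Galois representation on finite `n`-torsion has a finite
level. -/
theorem h5_torsion_level (hfin : Finite (Submodule.torsionBy ℤ (W⁄Qbar).Point n)) :
    GaloisFactorsThroughFiniteLevel (galoisRepModuleEnd (K := Qbar) ℚ W n) := by
  classical
  let S : Set Qbar := ⋃ Q : Submodule.torsionBy ℤ (W⁄Qbar).Point n, h5_coords W Q.1
  have hS : S.Finite := Set.finite_iUnion fun Q => h5_coords_finite W Q.1
  have hSf : Finite S := hS
  refine ⟨IntermediateField.adjoin ℚ S,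
    IntermediateField.finiteDimensional_adjoin fun x _ => h5_isIntegral_rat x, ?_⟩
  intro σ hσ
  apply LinearMap.ext
  intro Q
  rw [galoisRepModuleEnd_apply]
  apply Subtype.ext
  change σ • (Q : (W⁄Qbar).Point) = Q
  apply h5_smul_eq_of_coords
  intro x hx
  apply hσ
  apply IntermediateField.subset_adjoin
  exact Set.mem_iUnion.mpr ⟨Q, hx⟩

end Torsion

end Fermat.Agent.S42x.Cyc.H5
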